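import Fermat.Agent.MR.PLC.Met.SSNode
import Fermat.Agent.MR.PLC.End.Conc
import Fermat.Agent.S36.Kron.Main
import Fermat.Agent.S36.Geo.Num

/-!
# MR / PLC / Met : THICKNESS.  The nodes of the Deligne-Rapoport pair `Conc.TT A M q` are the supersingular points

`hsE k q M = Δ̄^(1-q) ∈ Igusa.E k M`, `SS k q M` its zeros (`S36/Kron`: all of order exactly `12`, `12 #SS = (q-1) ψ(M)`).
`N = (Conc.pairHyp A M q ..).nodeData` : the node `e` has the branches `p₁ e = (0, Φ e)`, `p₂ e = (1, e)`.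

* `mem_SS_iff` : `P ∈ SS ↔ P = Φ e` for a node `e`;   `mem_SS_of_mem_nodes` : the nodes themselves are in `SS`;
* `ord_hsE_p₁`, `ord_hsE_p₂` : `ord (hsE) = 12` at both branches of every node;
* `meterOK : End.MeterOK A M q N` : the input of `MR/PLC/End`.
-/

set_option autoImplicit false
set_option linter.unusedSectionVars false
set_option linter.style.haveILetI false

noncomputable section

namespace Fermat.Agent.MR.PLC.Met

open Polynomial ModularCurve AlgebraicCurve Fermat.Agent.S24 Fermat.Agent.S28 Fermat.Agent.GAL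
  Fermat.Agent.GAL.Gauss Fermat.Agent.GAL.RED Fermat.Agent.DR Fermat.Agent.DR.Gal Fermat.Agent.DR.Conc
  Fermat.Agent.S36R.Unit Fermat.Agent.S36.Kron Fermat.Agent.Lib.RR

section abs

variable {k Fb : Type*} [Field k] [Field Fb] [Algebra k Fb] [Lib.RR.IsFF k Fb] [IsAlgClosed k]
  {Xf : Nodal.Frob k Fb} {σ : Fb}

/-- the set of nodes is stable under `Φ` (by the symmetry `swap`). -/
theorem Φ_mem_nodes (𝓗 : Nodal.Filt Xf σ) {P : Place k Fb} (hP : P ∈ 𝓗.nodes) :
    Xf.Φ P ∈ 𝓗.nodes := by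
  refine ⟨(𝓗.reg_nodes hP).2, congrArg Xf.Φ hP.2.1, fun a w hw => ?_⟩
  have h := hP.2.2 a w.swap (𝓗.swap_mem a w hw)
  unfold Nodal.Glue at h ⊢
  rw [hP.2.1, Pi.one_apply, one_mul]
  rw [Pi.one_apply, one_mul] at h
  exact h.symm

end abs

variable (A : ValuationSubring Kbar) (M q : ℕ) [NeZero M] [NeZero q] (hq : q.Prime)
  (hqM : ¬ q ∣ M) (hA : A.LiesOverPrime q)
  [Fact q.Prime] [CharP (IsLocalRing.ResidueField ↥A) q] [PerfectRing (IsLocalRing.ResidueField ↥A) q]
  [IsAlgClosed (IsLocalRing.ResidueField ↥A)]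
  [Lib.RR.IsFF (IsLocalRing.ResidueField ↥A) (Igusa.E (IsLocalRing.ResidueField ↥A) M)]
  [Lib.RR.IsFF Kbar (FN (M * q))] [Lib.RR.IsFF Kbar (FN M)]

/-- **the number of nodes = the number of supersingular points.** -/
theorem ncard_nodes_eq (hneat : 4 ∣ M ∨ 9 ∣ M) (hg : GoodRed A M) :
    (pairHyp A M q hq hqM hA hg).filt.nodes.ncard = (SS (IsLocalRing.ResidueField ↥A) q M).card := by
  have h1 := (pairHyp A M q hq hqM hA hg).ncard_nodes
  have h2 := S36.Geo.genus_level_q' (M := M) (q := q) A hneat hq hqM hA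
  have h3 := (kron_main A M q hq hqM hA hneat).2
  have h4 : ((12 * (SS (IsLocalRing.ResidueField ↥A) q M).card : ℕ) : ℤ) =
      (((q - 1) * dedekindPsi M : ℕ) : ℤ) := by rw [h3]
  rw [Nat.cast_mul, Nat.cast_mul, Nat.cast_sub hq.one_le] at h4
  push_cast at h4
  have h5 : ((pairHyp A M q hq hqM hA hg).filt.nodes.ncard : ℤ) =
      ((SS (IsLocalRing.ResidueField ↥A) q M).card : ℤ) := by
    linarith
  exact_mod_cast h5

/-- the first branches of the nodes are exactly the supersingular points. -/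
theorem image_nodes_eq (hneat : 4 ∣ M ∨ 9 ∣ M) (hg : GoodRed A M) :
    (frobX (IsLocalRing.ResidueField ↥A) M q).Φ '' (pairHyp A M q hq hqM hA hg).filt.nodes =
      ↑(SS (IsLocalRing.ResidueField ↥A) q M) := by
  have hfin := (pairHyp A M q hq hqM hA hg).filt.finite_nodes
  symm
  apply Set.eq_of_subset_of_ncard_le
  · intro P hP
    obtain ⟨e, he, h⟩ := exists_node_of_mem_SS A M q hq hqM hA hg (Finset.mem_coe.1 hP)
    exact ⟨e, he, h⟩
  · rw [Set.InjOn.ncard_image (pairHyp A M q hq hqM hA hg).filt.injOn_nodes,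
      ncard_nodes_eq A M q hq hqM hA hneat hg, Set.ncard_coe_finset]
  · exact hfin.image _

theorem mem_SS_iff (hneat : 4 ∣ M ∨ 9 ∣ M) (hg : GoodRed A M)
    (P : Place (IsLocalRing.ResidueField ↥A) (Igusa.E (IsLocalRing.ResidueField ↥A) M)) :
    P ∈ SS (IsLocalRing.ResidueField ↥A) q M ↔ ∃ e ∈ (pairHyp A M q hq hqM hA hg).filt.nodes,
      (frobX (IsLocalRing.ResidueField ↥A) M q).Φ e = P := by
  rw [← Finset.mem_coe, ← image_nodes_eq A M q hq hqM hA hneat hg]
  rfl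

theorem Φ_mem_SS (hneat : 4 ∣ M ∨ 9 ∣ M) (hg : GoodRed A M)
    {e : Place (IsLocalRing.ResidueField ↥A) (Igusa.E (IsLocalRing.ResidueField ↥A) M)}
    (he : e ∈ (pairHyp A M q hq hqM hA hg).filt.nodes) :
    (frobX (IsLocalRing.ResidueField ↥A) M q).Φ e ∈ SS (IsLocalRing.ResidueField ↥A) q M :=
  (mem_SS_iff A M q hq hqM hA hneat hg _).2 ⟨e, he, rfl⟩

theorem mem_SS_of_mem_nodes (hneat : 4 ∣ M ∨ 9 ∣ M) (hg : GoodRed A M)
    {e : Place (IsLocalRing.ResidueField ↥A) (Igusa.E (IsLocalRing.ResidueField ↥A) M)}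
    (he : e ∈ (pairHyp A M q hq hqM hA hg).filt.nodes) :
    e ∈ SS (IsLocalRing.ResidueField ↥A) q M := by
  have h := Φ_mem_SS A M q hq hqM hA hneat hg (Φ_mem_nodes _ he)
  rwa [he.2.1] at h

/-- **thickness**, first branch. -/
theorem ord_hsE_p₁ (hneat : 4 ∣ M ∨ 9 ∣ M) (hg : GoodRed A M)
    (e : ↥(pairHyp A M q hq hqM hA hg).filt.nodes) :
    (((pairHyp A M q hq hqM hA hg).nodeData.p₁ e :
      Place (IsLocalRing.ResidueField ↥A) (Igusa.E (IsLocalRing.ResidueField ↥A) M))).ord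
        (hsE (IsLocalRing.ResidueField ↥A) q M) = 12 :=
  ((kron_main A M q hq hqM hA hneat).1 _ (Φ_mem_SS A M q hq hqM hA hneat hg e.2)).1

/-- **thickness**, second branch. -/
theorem ord_hsE_p₂ (hneat : 4 ∣ M ∨ 9 ∣ M) (hg : GoodRed A M)
    (e : ↥(pairHyp A M q hq hqM hA hg).filt.nodes) :
    (((pairHyp A M q hq hqM hA hg).nodeData.p₂ e :
      Place (IsLocalRing.ResidueField ↥A) (Igusa.E (IsLocalRing.ResidueField ↥A) M))).ord
        (hsE (IsLocalRing.ResidueField ↥A) q M) = 12 :=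
  ((kron_main A M q hq hqM hA hneat).1 _ (mem_SS_of_mem_nodes A M q hq hqM hA hneat hg e.2)).1

/-- an element of `Igusa.E k M` with the series `meterS k q` is `hsE ^ (q + 1)`. -/
theorem eq_hsE_pow {ψ : Igusa.E (IsLocalRing.ResidueField ↥A) M}
    (hψ : (ψ : LaurentSeries (IsLocalRing.ResidueField ↥A)) = meterS (IsLocalRing.ResidueField ↥A) q) :
    ψ = hsE (IsLocalRing.ResidueField ↥A) q M ^ (q + 1) := by
  apply Subtype.ext
  rw [hψ, meterS, qExpand_Dlinv (IsLocalRing.ResidueField ↥A) q]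
  have : ((hsE (IsLocalRing.ResidueField ↥A) q M ^ (q + 1) :
      Igusa.E (IsLocalRing.ResidueField ↥A) M) : LaurentSeries (IsLocalRing.ResidueField ↥A)) =
      ((hsE (IsLocalRing.ResidueField ↥A) q M : Igusa.E (IsLocalRing.ResidueField ↥A) M) :
        LaurentSeries (IsLocalRing.ResidueField ↥A)) ^ (q + 1) := rfl
  rw [this, coe_hsE]

/-- **The input `MeterOK` of `MR/PLC/End`.** -/
theorem meterOK (hneat : 4 ∣ M ∨ 9 ∣ M) (hg : GoodRed A M) :
    End.MeterOK A M q (pairHyp A M q hq hqM hA hg).nodeData where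
  i₁ := fun _ => rfl
  i₂ := fun _ => rfl
  noncusp := fun e => ord_jb_nonneg_of_mem_SS _ q M (Φ_mem_SS A M q hq hqM hA hneat hg e.2)
  node := by
    intro ψ hψ e
    rw [eq_hsE_pow A M q hψ, RED.ord_pow, ord_hsE_p₁ A M q hq hqM hA hneat hg e]
    push_cast
    ring
  other := by
    intro ψ hψ P hP hne
    rw [eq_hsE_pow A M q hψ, RED.ord_pow]
    rcases ord_hsE_cases A M q hq hqM hA hneat P hP with h | ⟨h, -⟩
    · rw [h, mul_zero]
    · exfalso
      have hS : P ∈ SS (IsLocalRing.ResidueField ↥A) q M := by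
        rw [mem_SS, h]
        norm_num
      obtain ⟨e, he, h1⟩ := (mem_SS_iff A M q hq hqM hA hneat hg P).1 hS
      exact hne ⟨e, he⟩ h1

end Fermat.Agent.MR.PLC.Met
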