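import Fermat.Agent.MR.PLC.Met.Meter
import Fermat.Agent.MR.PLC.Met.Thick
import Fermat.Agent.MR.PLC.End.Contract

/-!
# MR / PLC / MET : `metStatement : End.MetStatement`
-/

set_option autoImplicit false
set_option linter.unusedSectionVars false
set_option synthInstance.maxHeartbeats 400000

noncomputable section

namespace Fermat.Agent.MR.PLC.Met

open ModularCurve AlgebraicCurve Polynomial Fermat.Agent.S24 Fermat.Agent.GAL Fermat.Agent.GAL.Gauss
  Fermat.Agent.GAL.RED Fermat.Agent.DR.Gal Fermat.Agent.DR.Conc Fermat.Agent.Lib.RR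
  Fermat.Agent.S28 Fermat.Agent.S36R.Unit Fermat.Agent.S36.Kron Fermat.Agent.DR.Abs

/-- **(MET)** -/
theorem metStatement : End.MetStatement := by
  intro M p _ _ hp hpM _ h4 A hA _ _ _ _ _ _ _ hg
  have hneat : 4 ∣ M ∨ 9 ∣ M := Or.inl h4
  obtain ⟨Φ, U, G, m, c, hB⟩ := GAL.Igusa.hB p hp
  have hB' : BData p Φ U G m c := hB
  have h := pairHyp A M p hp hpM hA hg
  obtain ⟨a₀, hN⟩ := h.isPreNodal
  refine ⟨meterOK A M p hp hpM hA hneat hg, xiC M p, 12 * m, Psi M p Φ G, ?_, ?_, ?_, ?_⟩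
  · intro τ _
    exact gal_xiC M p τ
  · refine isCoord M p hp hpM A hA _ ?_ ?_ ?_ ?_
    · intro e
      have := hN.unit₁ e
      rwa [TT_red_xC] at this
    · intro e
      have := hN.unit₂ e
      rwa [TT_red_xC] at this
    · intro e
      refine ord_jb_nonneg_of_mem_SS _ p M ((mem_SS _ p M).2 ?_)
      rw [ord_hsE_p₁ A M p hp hpM hA hneat hg e]
      norm_num
    · intro e
      refine ord_jb_nonneg_of_mem_SS _ p M ((mem_SS _ p M).2 ?_)
      rw [ord_hsE_p₂ A M p hp hpM hA hneat hg e]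
      norm_num
  · exact ord_xC_nonneg_of_xiC M p hp hpM
  · exact isMeter A M p hp hpM hA hB' hg (fun e => (ord_hsE_p₁ A M p hp hpM hA hneat hg e).ge)
      (fun e => (ord_hsE_p₂ A M p hp hpM hA hneat hg e).ge)

end Fermat.Agent.MR.PLC.Met
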