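import Fermat.Agent.DR.Conc.Main
import Fermat.Agent.MR.PLC.Abs.Defs

/-!
# MR / PLC / MET : the coordinate `ξ = xC + xN`

`xC = ξ(j) ξ(j_q)` is the coordinate of DR (its poles are not cusps), `xN = j j_q` (its poles are the cusps).  `xiC = xC + xN` has as poles the poles of `xC` and
the cusps; its polar divisor reduces well.

* `isCoord`  : `Abs.IsCoord TT xiC N` for every node datum `N` whose branches are neither poles of `sig` nor cusps;
* `ord_xC_nonneg_of_xiC` : the poles of `xC` are poles of `xiC`;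
* `exists_mem_rr_xiC` : a function which is regular off the cusps is in some `L(a (xiC)_∞)`;
* `gal_xiC`  : `xiC` is rational.
-/

set_option autoImplicit false
set_option linter.unusedSectionVars false

noncomputable section

namespace Fermat.Agent.MR.PLC.Met

open ModularCurve AlgebraicCurve Polynomial Fermat.Agent.S24 Fermat.Agent.GAL Fermat.Agent.GAL.Gauss
  Fermat.Agent.GAL.RED Fermat.Agent.DR.Gal Fermat.Agent.DR.Conc Fermat.Agent.Lib.RR
  Fermat.Agent.DR.Abs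

section abs

variable {K F : Type*} [Field K] [Field F] [Algebra K F] [Lib.RR.IsFF K F]

/-- LEAF CO-1.  `ext P`, `Finsupp.add_apply`, `poleDiv_apply` (`= max (-ord) 0`).  If `ord_P u < 0` then `0 ≤ ord_P v`, so `ord_P (u + v) = ord_P u`
(the ultrametric equality: search `ord_add_eq` in `GAL/RED`, `Lib/RR`, `DR/Conc/XiAbs.lean` (`XiAbs_ord_one_add`), or deduce it from `Place.ord_add`);
symmetric case; if both are `≥ 0` so is the sum.  Beware of the junk value `ord 0 = 0`. -/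
theorem poleDiv_add_of_disjoint {u v : F} (h : ∀ P : Place K F, 0 ≤ P.ord u ∨ 0 ≤ P.ord v) :
    poleDiv (K := K) (u + v) = poleDiv (K := K) u + poleDiv (K := K) v := by
  have key : ∀ (P : Place K F) (a b : F), P.ord a < 0 → 0 ≤ P.ord b →
      P.ord (a + b) = P.ord a := by
    intro P a b ha hb
    have ha0 : a ≠ 0 := by
      rintro rfl
      rw [Place.ord_zero] at ha
      exact lt_irrefl _ ha
    rcases eq_or_ne b 0 with rfl | hb0
    · rw [add_zero]
    · exact ord_add_eq_of_lt P ha0 hb0 (lt_of_lt_of_le ha hb)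
  ext P
  rw [Finsupp.add_apply, poleDiv_apply, poleDiv_apply, poleDiv_apply]
  by_cases hu : P.ord u < 0
  · have hv : 0 ≤ P.ord v := (h P).resolve_left (not_le.2 hu)
    rw [key P u v hu hv, max_eq_right (by omega : -(P.ord v) ≤ 0), add_zero]
  · rw [not_lt] at hu
    by_cases hv : P.ord v < 0
    · rw [add_comm u v, key P v u hv hu, max_eq_right (by omega : -(P.ord u) ≤ 0), zero_add]
    · rw [not_lt] at hv
      have h1 : 0 ≤ P.ord (u + v) := by
        rcases eq_or_ne (u + v) 0 with h0 | h0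
        · rw [h0, Place.ord_zero]
        · exact le_trans (le_min hu hv) (min_le_ord_add P h0)
      rw [max_eq_right (by omega : -(P.ord (u + v)) ≤ 0), max_eq_right (by omega : -(P.ord u) ≤ 0),
        max_eq_right (by omega : -(P.ord v) ≤ 0), add_zero]

/-- LEAF CO-1. -/
theorem ord_add_neg_of_disjoint {u v : F} (P : Place K F) (hu : P.ord u < 0) (hv : 0 ≤ P.ord v) :
    P.ord (u + v) < 0 := by
  have hu0 : u ≠ 0 := by
    rintro rfl
    rw [Place.ord_zero] at hu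
    exact lt_irrefl _ hu
  rcases eq_or_ne v 0 with rfl | hv0
  · rwa [add_zero]
  · rw [ord_add_eq_of_lt P hu0 hv0 (lt_of_lt_of_le hu hv)]
    exact hu

end abs

variable (M q : ℕ) [NeZero M] [NeZero q] (hq : q.Prime) (hqM : ¬ q ∣ M)

/-- The coordinate. -/
def xiC : FN (M * q) := xC M q + xN M q

/-- LEAF CO-2.  As `DR.Conc.gal_xC` (`DR/Conc/Xi.lean`): `σ • ·` is a ring automorphism fixing `jN`, `jqN`. -/
theorem gal_xiC (σ : Kbar ≃ₐ[ℚ] Kbar) :
    arithmeticGalois (modularFunctionFieldFull (M * q)) σ • xiC M q = xiC M q := by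
  have h1 : arithmeticRingAut (modularFunctionFieldFull (M * q)) σ (jN M q) = jN M q := by
    apply Subtype.ext
    rw [coe_arithmeticRingAut_apply, coe_jN, coeffMap_jqModC]
  have h2 : arithmeticRingAut (modularFunctionFieldFull (M * q)) σ (jqN M q) = jqN M q := by
    apply Subtype.ext
    rw [coe_arithmeticRingAut_apply, coe_jqN, coeffMap_qExpand, coeffMap_jqModC]
  have h3 : arithmeticRingAut (modularFunctionFieldFull (M * q)) σ (xC M q) = xC M q :=
    gal_xC M q σ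
  show arithmeticRingAut (modularFunctionFieldFull (M * q)) σ (xiC M q) = _
  rw [xiC, map_add, h3, xN, map_mul, h1, h2]

variable [Lib.RR.IsFF Kbar (FN (M * q))]

/-- (aux. for CO-3, CO-3') at a pole of `t` the function `xiOf n t` is a unit. -/
theorem ord_xC_or_xN_aux {K F : Type*} [Field K] [Field F] [Algebra K F] [Lib.RR.IsFF K F]
    [IsAlgClosed K] {n : ℕ} (hn : 2 ≤ n) {t : F}
    (ht : Transcendental K t) (P : Place K F) (h : P.ord t < 0) : P.ord (xiOf n t) = 0 := by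
  obtain ⟨⟨p, hp, hdeg, hpe⟩, -, -⟩ := exists_monic_yOf (K := K) hn t
  apply ord_xiOf_eq_zero hn ht P
  rw [← hpe, XiAbs_ord_aeval_monic P h p hp, hdeg]
  have h1 : (n : ℤ) ≠ 0 := by
    have : n ≠ 0 := by omega
    exact_mod_cast this
  exact mul_ne_zero h1 h.ne

include hq hqM in
/-- LEAF CO-3.  If `ord_P xN < 0` then `P` is a pole of `jN` and of `jqN` (`xN = jN * jqN`, `jqN_mem_place_iff`, as in `Coord_poleDiv_xN`); then
`yOf (q²) jN = jN^(q²) - jN` has a pole (`exists_monic_yOf` + `XiAbs_ord_aeval_monic`), so `ord_P (xiOf (q²) jN) = 0` (`ord_xiOf_eq_zero`); the same for `jqN`;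
hence `ord_P xC = 0`. -/
theorem ord_xC_or_xN (P : Place Kbar (FN (M * q))) : 0 ≤ P.ord (xC M q) ∨ 0 ≤ P.ord (xN M q) := by
  by_cases hN : 0 ≤ P.ord (xN M q)
  · exact Or.inr hN
  left
  rw [not_le, xN, P.ord_mul (Coord_jN_ne_zero M q) (Coord_jqN_ne_zero M q)] at hN
  have h := jqN_mem_place_iff M q hq hqM P
  rw [S24.mem_iff_ord_nonneg P (Coord_jN_ne_zero M q),
    S24.mem_iff_ord_nonneg P (Coord_jqN_ne_zero M q)] at h
  have h1 : P.ord (jN M q) < 0 := by
    by_contra hc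
    rw [not_lt] at hc
    have := h.2 hc
    omega
  have h2 : P.ord (jqN M q) < 0 := by
    by_contra hc
    rw [not_lt] at hc
    have := h.1 hc
    omega
  have ht1 : Transcendental Kbar (jN M q) := Coord_transcendental_jN M q
  have ht2 : Transcendental Kbar (jqN M q) := by
    rw [DR.Conc.jqN, Transcendental,
      isAlgebraic_algHom_iff (heckeBetaBar Kbar M q) (heckeBetaBar Kbar M q).injective]
    exact transcendental_jF M
  have hn := two_le_sq q hq
  rw [xC, P.ord_mul (xiOf_ne_zero hn ht1) (xiOf_ne_zero hn ht2),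
    ord_xC_or_xN_aux hn ht1 P h1, ord_xC_or_xN_aux hn ht2 P h2]
  exact le_refl _

include hq hqM in
theorem poleDiv_xiC : poleDiv (K := Kbar) (xiC M q) =
    poleDiv (K := Kbar) (xC M q) + poleDiv (K := Kbar) (xN M q) :=
  poleDiv_add_of_disjoint (ord_xC_or_xN M q hq hqM)

include hq hqM in
/-- the poles of `xC` are poles of `xiC`. -/
theorem ord_xC_nonneg_of_xiC (P : Place Kbar (FN (M * q))) (h : 0 ≤ P.ord (xiC M q)) :
    0 ≤ P.ord (xC M q) := by
  by_contra hc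
  rw [not_le] at hc
  have h1 : 0 ≤ P.ord (xN M q) := (ord_xC_or_xN M q hq hqM P).resolve_left (not_le.2 hc)
  have := ord_add_neg_of_disjoint P hc h1
  rw [xiC] at h
  omega

include hq hqM in
/-- LEAF CO-4.  `regOff_xN`, `exists_mem_rr_of_mem_regOff` give `y ∈ L(a (xN)_∞)`; `DR.Abs.L_mono` with `a • (xN)_∞ ≤ a • (xiC)_∞` (`poleDiv_xiC`,
`poleBound_poleDiv_nonneg`, `nsmul_le_nsmul_right`). -/
theorem exists_mem_rr_xiC {y : FN (M * q)} (hy : y ∈ regOff Kbar (jN M q)) :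
    ∃ a : ℕ, y ∈ riemannRochSpace (a • poleDiv (K := Kbar) (xiC M q)) := by
  rw [← regOff_xN M q hq hqM] at hy
  obtain ⟨a, ha⟩ := exists_mem_rr_of_mem_regOff hy
  refine ⟨a, Fermat.Agent.DR.Abs.L_mono ?_ ha⟩
  rw [poleDiv_xiC M q hq hqM]
  apply nsmul_le_nsmul_right
  exact le_add_of_nonneg_left (poleBound_poleDiv_nonneg _)

variable (A : ValuationSubring Kbar) (hA : A.LiesOverPrime q)
  [Fact q.Prime] [CharP (IsLocalRing.ResidueField ↥A) q] [PerfectRing (IsLocalRing.ResidueField ↥A) q]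
  [IsAlgClosed (IsLocalRing.ResidueField ↥A)]
  [Lib.RR.IsFF (IsLocalRing.ResidueField ↥A) (Igusa.E (IsLocalRing.ResidueField ↥A) M)]
  [Lib.RR.IsFF Kbar (FN M)]

set_option quotPrecheck false in
local notation "𝕜" => IsLocalRing.ResidueField ↥A

/-- LEAF CO-5.  `fin_cases i`; `RedData.red_add` (both summands are in `O`: `mem_of_red_ne_zero`, `R1_red_xC`, `R1_red_xN`, `sig_ne_zero`, `jb_ne_zero'`). -/
theorem TT_red_xiC (i : Fin 2) : ((TT A M q hq hqM hA).R i).red (xiC M q) =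
    sig 𝕜 M q + Igusa.jb 𝕜 M ^ (q + 1) := by
  have key : ∀ R : RedData Kbar (FN (M * q)) 𝕜 (Igusa.E 𝕜 M), R.red (xC M q) = sig 𝕜 M q →
      R.red (xN M q) = Igusa.jb 𝕜 M ^ (q + 1) →
      R.red (xiC M q) = sig 𝕜 M q + Igusa.jb 𝕜 M ^ (q + 1) := by
    intro R h1 h2
    rw [xiC, R.red_add (R.mem_of_red_ne_zero (by rw [h1]; exact sig_ne_zero _ M q))
      (R.mem_of_red_ne_zero (by rw [h2]; exact pow_ne_zero _ (jb_ne_zero' _ M))), h1, h2]
  fin_cases i
  · exact key _ (R1_red_xC A M q hq hqM hA) (R1_red_xN M q hq hqM A hA)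
  · exact key _ (R2_red_xC A M q hq hqM hA) (R2_red_xN M q hq hqM A hA)

/-- LEAF CO-3'.  As `ord_xC_or_xN`: at a pole of `j̄` the function `xib = xiOf (q²) j̄` has order `0`, `sig = xib ^ (q + 1)`. -/
theorem ord_sig_or_jb (P : Place 𝕜 (Igusa.E 𝕜 M)) :
    0 ≤ P.ord (sig 𝕜 M q) ∨ 0 ≤ P.ord (Igusa.jb 𝕜 M ^ (q + 1)) := by
  by_cases hj : 0 ≤ P.ord (Igusa.jb 𝕜 M)
  · right
    rw [RED.ord_pow]
    positivity
  · left
    rw [not_le] at hj
    rw [sig, RED.ord_pow, xib,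
      ord_xC_or_xN_aux (two_le_sq' q) (Igusa.transcendental_jb 𝕜 M) P hj, mul_zero]

/-- LEAF CO-6.  `TT_red_xiC`; `j̄` has a pole `P` (it is transcendental: `Igusa.transcendental_jb`; e.g. `degree_poleDiv_xb` is `> 0`, or as
`exists_pole_sig`); there `ord_P (sig + j̄^(q+1)) < 0` (`ord_add_neg_of_disjoint`, `add_comm`, `ord_sig_or_jb`), but constants have order `≥ 0`. -/
theorem TT_red_xiC_not_mem_range (i : Fin 2) : ((TT A M q hq hqM hA).R i).red (xiC M q) ∉
    Set.range (algebraMap 𝕜 (Igusa.E 𝕜 M)) := by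
  rw [TT_red_xiC]
  rintro ⟨c, hc⟩
  obtain ⟨P, hP⟩ : ∃ P : Place 𝕜 (Igusa.E 𝕜 M), P.ord (Igusa.jb 𝕜 M ^ (q + 1)) < 0 := by
    by_contra hcon
    push Not at hcon
    obtain ⟨d, hd⟩ := mem_range_of_ord_nonneg hcon
    have h1 : IsAlgebraic 𝕜 (Igusa.jb 𝕜 M ^ (q + 1)) := hd ▸ isAlgebraic_algebraMap d
    exact Igusa.transcendental_jb 𝕜 M (h1.of_pow (Nat.succ_pos q))
  have h1 : 0 ≤ P.ord (sig 𝕜 M q) := (ord_sig_or_jb M q A P).resolve_right (not_le.2 hP)
  have h2 := ord_add_neg_of_disjoint P hP h1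
  rw [add_comm, ← hc, RED.ord_algebraMap] at h2
  exact lt_irrefl _ h2

/-- LEAF CO-7.  `poleDiv_xiC`, `map_add`, `TT_degree`, `degree_poleDiv_xN`; on the right `TT_red_xiC`, `poleDiv_add_of_disjoint (ord_sig_or_jb ..)`, `map_add`,
`degree_poleDiv_xb` (`hM := natCast_M_ne_zero A M q hq hqM hA`), `TT_red_xC`, `Fin.sum_univ_two`; `push_cast; ring`. -/
theorem TT_degree_xiC : Divisor.degree (poleDiv (K := Kbar) (xiC M q)) =
    ∑ i : Fin 2, Divisor.degree (poleDiv (K := 𝕜) (((TT A M q hq hqM hA).R i).red (xiC M q))) := by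
  have hM := natCast_M_ne_zero A M q hq hqM hA
  rw [poleDiv_xiC M q hq hqM, map_add, TT_degree A M q hq hqM hA, degree_poleDiv_xN M q hq hqM,
    Fin.sum_univ_two, Fin.sum_univ_two, TT_red_xC, TT_red_xC, TT_red_xiC, TT_red_xiC,
    poleDiv_add_of_disjoint (ord_sig_or_jb M q A), map_add, degree_poleDiv_xb M q 𝕜 hM]
  push_cast
  ring

/-- LEAF CO-8.  `Place.ord_add`-type inequality: both summands have order `≥ 0`. -/
theorem ord_red_xiC_nonneg (i : Fin 2) (P : Place 𝕜 (Igusa.E 𝕜 M)) (h1 : P.ord (sig 𝕜 M q) = 0)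
    (h2 : 0 ≤ P.ord (Igusa.jb 𝕜 M)) : 0 ≤ P.ord (((TT A M q hq hqM hA).R i).red (xiC M q)) := by
  rw [TT_red_xiC]
  have h3 : 0 ≤ P.ord (Igusa.jb 𝕜 M ^ (q + 1)) := by
    rw [ord_pow]
    positivity
  rcases eq_or_ne (sig 𝕜 M q + Igusa.jb 𝕜 M ^ (q + 1)) 0 with h0 | h0
  · rw [h0, Place.ord_zero]
  · exact le_trans (le_min h1.ge h3) (min_le_ord_add P h0)

set_option synthInstance.maxHeartbeats 400000 in
/-- **`xiC` is a coordinate.** -/
theorem isCoord {Nd : Type*} (N : NodeData 𝕜 (fun _ : Fin 2 => Igusa.E 𝕜 M) Nd)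
    (hs₁ : ∀ e, (N.p₁ e : Place 𝕜 (Igusa.E 𝕜 M)).ord (sig 𝕜 M q) = 0)
    (hs₂ : ∀ e, (N.p₂ e : Place 𝕜 (Igusa.E 𝕜 M)).ord (sig 𝕜 M q) = 0)
    (hc₁ : ∀ e, 0 ≤ (N.p₁ e : Place 𝕜 (Igusa.E 𝕜 M)).ord (Igusa.jb 𝕜 M))
    (hc₂ : ∀ e, 0 ≤ (N.p₂ e : Place 𝕜 (Igusa.E 𝕜 M)).ord (Igusa.jb 𝕜 M)) :
    Fermat.Agent.MR.PLC.Abs.IsCoord (Fb := fun _ : Fin 2 => Igusa.E 𝕜 M) (TT A M q hq hqM hA) (xiC M q) N where
  nonconst := TT_red_xiC_not_mem_range M q hq hqM A hA
  deg := TT_degree_xiC M q hq hqM A hA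
  node₁ := fun e => ord_red_xiC_nonneg M q hq hqM A hA _ _ (hs₁ e) (hc₁ e)
  node₂ := fun e => ord_red_xiC_nonneg M q hq hqM A hA _ _ (hs₂ e) (hc₂ e)

end Fermat.Agent.MR.PLC.Met
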