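import Fermat.Agent.MR.PLC.Met.Psi
import Fermat.Agent.S36.Kron.Gpoly

/-!
# MR / PLC / MET : the reductions of the meters

`hsE = S36.Kron.hsE 𝕜 q M = Δ̄^(1-q)`.
* `red₀ psi1 = red₁ psi0 = hsE ^ m`;
* `red₀ (psi0 / q ^ (12 m)) = red₁ (psi1 / q ^ (12 m)) = (hsE ^ m)⁻¹`;
* `red₀ psi0 = red₁ psi1 = 0`.
-/

set_option autoImplicit false
set_option linter.unusedSectionVars false

noncomputable section

namespace Fermat.Agent.MR.PLC.Met

open ModularCurve AlgebraicCurve Polynomial Fermat.Agent.S24 Fermat.Agent.GAL Fermat.Agent.GAL.Gauss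
  Fermat.Agent.GAL.RED Fermat.Agent.DR.Gal Fermat.Agent.DR.Conc Fermat.Agent.Lib.RR
  Fermat.Agent.S28 Fermat.Agent.S36R.Unit Fermat.Agent.S36.Kron

variable (A : ValuationSubring Kbar) (M q : ℕ) [NeZero M] [NeZero q] (hq : q.Prime)
  (hqM : ¬ q ∣ M) (hA : A.LiesOverPrime q)
  [Fact q.Prime] [CharP (IsLocalRing.ResidueField ↥A) q]
variable {Φ G U : ℤ[X][X]} {m : ℕ} {c : ℤ} (hB : BData q Φ U G m c)

set_option quotPrecheck false in
local notation "𝕜" => IsLocalRing.ResidueField ↥A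

theorem coe_hsE_pow (m : ℕ) :
    ((hsE 𝕜 q M ^ m : Igusa.E 𝕜 M) : LaurentSeries 𝕜) = Hs 𝕜 q m := by
  rw [SubmonoidClass.coe_pow, coe_hsE, Hs]

include hB

theorem R1_red_psi1 : (R1 A M q hq hqM hA).red (psi1 M q Φ G) = hsE 𝕜 q M ^ m := by
  obtain ⟨h, hr⟩ := GR_down (A := A) (q := q) m
  rw [← coe_psi1 M q hq hB] at h
  apply Subtype.ext
  rw [coe_R1_red A M q hq hqM hA _ h, coe_hsE_pow, ← hr]
  congr 1
  exact Subtype.ext (coe_psi1 M q hq hB)

theorem R2_red_psi0 : (R2 A M q hq hqM hA).red (psi0 M q Φ G) = hsE 𝕜 q M ^ m := by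
  rw [R2_red, W_psi0, R1_red_psi1 A M q hq hqM hA hB]

/-- LEAF PR-1.  The expansion of `psi0 / q ^ (12 m)` is `(Δ(t^q) Δ(t)⁻¹) ^ m` (`coe_psi0`, `mul_pow`, the coercion
`FN (M q) → LaurentSeries Kbar` is a ring hom commuting with `algebraMap Kbar`); `GR_up`; then as in `R1_red_psi1`
(`coe_R1_red`, `coe_hsE_pow`, the coercion `Igusa.E 𝕜 M → LaurentSeries 𝕜` commutes with `⁻¹`). -/
theorem R1_red_psi0_div : (R1 A M q hq hqM hA).red
    (psi0 M q Φ G / algebraMap Kbar (FN (M * q)) (q : Kbar) ^ (12 * m)) = (hsE 𝕜 q M ^ m)⁻¹ := by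
  obtain ⟨h, hr⟩ := GR_up (A := A) (q := q) m
  have hq0 : (q : LaurentSeries Kbar) ≠ 0 := by
    have h1 : (q : LaurentSeries Kbar) = HahnSeries.C (q : Kbar) := (map_natCast _ q).symm
    rw [h1, Ne, map_eq_zero]
    exact Nat.cast_ne_zero.mpr hq.ne_zero
  have hcoe : ((psi0 M q Φ G / algebraMap Kbar (FN (M * q)) (q : Kbar) ^ (12 * m) : FN (M * q)) :
      LaurentSeries Kbar) = (qExpand Kbar q (DlL Kbar) * DlLinv Kbar) ^ m := by
    rw [IntermediateField.coe_div, IntermediateField.coe_pow, coe_algebraMap_FN,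
      coe_psi0 M q hq hB, map_natCast, mul_assoc, mul_pow, ← pow_mul,
      mul_div_cancel_left₀ _ (pow_ne_zero _ hq0)]
  rw [← hcoe] at h
  apply Subtype.ext
  rw [coe_R1_red A M q hq hqM hA _ h, IntermediateField.coe_inv, coe_hsE_pow, ← hr]
  congr 1
  exact Subtype.ext hcoe

theorem R2_red_psi1_div : (R2 A M q hq hqM hA).red
    (psi1 M q Φ G / algebraMap Kbar (FN (M * q)) (q : Kbar) ^ (12 * m)) = (hsE 𝕜 q M ^ m)⁻¹ := by
  rw [R2_red, map_div₀, map_pow, AlgEquiv.commutes, W_psi1, R1_red_psi0_div A M q hq hqM hA hB]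

/-- LEAF PR-2.  `0 < m` is `hB.1`.
`psi0 = q ^ (12 m) * (psi0 / q ^ (12 m))`, the second factor is in `R1.O` (`mem_of_red_ne_zero`, `R1_red_psi0_div`, `hsE_ne_zero`),
`red (algebraMap q) = algebraMap (redA q) = 0` (`RedData.red_algebraMap`; `q ∈ 𝔪_A` by `hA`, cf. `DR.Conc.natCast_M_ne_zero` and the lemmas
on `LiesOverPrime` used in `S36R/K0/BlockL.lean`). -/
theorem R1_red_psi0 : (R1 A M q hq hqM hA).red (psi0 M q Φ G) = 0 := by
  have hm : 0 < m := hB.1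
  have hne : (R1 A M q hq hqM hA).red
      (psi0 M q Φ G / algebraMap Kbar (FN (M * q)) (q : Kbar) ^ (12 * m)) ≠ 0 := by
    rw [R1_red_psi0_div A M q hq hqM hA hB]
    exact inv_ne_zero (pow_ne_zero _ (hsE_ne_zero _ _ _))
  have hq0 : algebraMap Kbar (FN (M * q)) (q : Kbar) ≠ 0 := by
    rw [Ne, map_eq_zero]
    exact Nat.cast_ne_zero.mpr hq.ne_zero
  have heq : psi0 M q Φ G = algebraMap Kbar (FN (M * q)) (q : Kbar) ^ (12 * m) *
      (psi0 M q Φ G / algebraMap Kbar (FN (M * q)) (q : Kbar) ^ (12 * m)) := by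
    rw [mul_div_cancel₀ _ (pow_ne_zero _ hq0)]
  have hqA : (q : Kbar) ∈ (R1 A M q hq hqM hA).A := natCast_mem _ q
  rw [heq, (R1 A M q hq hqM hA).red_mul
      (pow_mem ((R1 A M q hq hqM hA).algebraMap_mem _ hqA) _)
      ((R1 A M q hq hqM hA).mem_of_red_ne_zero hne),
    RedData.red_pow, RedData.red_algebraMap', RedData.redA_natCast, CharP.cast_eq_zero, map_zero,
    zero_pow (by omega), zero_mul]

theorem R2_red_psi1 : (R2 A M q hq hqM hA).red (psi1 M q Φ G) = 0 := by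
  rw [R2_red, W_psi1, R1_red_psi0 A M q hq hqM hA hB]

end Fermat.Agent.MR.PLC.Met
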