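import Fermat.Agent.MR.PLC.Met.PsiReg
import Fermat.Agent.MR.PLC.Met.PsiRed
import Fermat.Agent.MR.PLC.Met.Coord

/-!
# MR / PLC / MET : `Psi` is a meter for the pair `(R1, R2)` on `FN (M q)`

Input: the Hasse function `hsE` vanishes to the order `≥ 12` at the two branches of every node (`Thick.lean`, from KRON).
-/

set_option autoImplicit false
set_option linter.unusedSectionVars false

noncomputable section

namespace Fermat.Agent.MR.PLC.Met

open ModularCurve AlgebraicCurve Polynomial Fermat.Agent.S24 Fermat.Agent.GAL Fermat.Agent.GAL.Gauss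
  Fermat.Agent.GAL.RED Fermat.Agent.DR.Gal Fermat.Agent.DR.Conc Fermat.Agent.Lib.RR
  Fermat.Agent.S28 Fermat.Agent.S36R.Unit Fermat.Agent.S36.Kron Fermat.Agent.DR.Abs

variable (A : ValuationSubring Kbar) (M q : ℕ) [NeZero M] [NeZero q] (hq : q.Prime)
  (hqM : ¬ q ∣ M) (hA : A.LiesOverPrime q)
  [Fact q.Prime] [CharP (IsLocalRing.ResidueField ↥A) q] [PerfectRing (IsLocalRing.ResidueField ↥A) q]
  [IsAlgClosed (IsLocalRing.ResidueField ↥A)]
  [Lib.RR.IsFF (IsLocalRing.ResidueField ↥A) (Igusa.E (IsLocalRing.ResidueField ↥A) M)]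
  [Lib.RR.IsFF Kbar (FN (M * q))] [Lib.RR.IsFF Kbar (FN M)]
variable {Φ G U : ℤ[X][X]} {m : ℕ} {c : ℤ} (hB : BData q Φ U G m c)

set_option quotPrecheck false in
local notation "𝕜" => IsLocalRing.ResidueField ↥A

include hB

theorem TT_red_Psi_self (i : Fin 2) : ((TT A M q hq hqM hA).R i).red
    (Psi M q Φ G i / algebraMap Kbar (FN (M * q)) (q : Kbar) ^ (12 * m)) = (hsE 𝕜 q M ^ m)⁻¹ := by
  fin_cases i
  · exact R1_red_psi0_div A M q hq hqM hA hB
  · exact R2_red_psi1_div A M q hq hqM hA hB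

theorem TT_red_Psi_other {i j : Fin 2} (hij : i ≠ j) :
    ((TT A M q hq hqM hA).R j).red (Psi M q Φ G i) = hsE 𝕜 q M ^ m := by
  fin_cases i <;> fin_cases j
  · exact absurd rfl hij
  · exact R2_red_psi0 A M q hq hqM hA hB
  · exact R1_red_psi1 A M q hq hqM hA hB
  · exact absurd rfl hij

theorem hsE_pow_ne_zero : hsE 𝕜 q M ^ m ≠ 0 := pow_ne_zero _ (hsE_ne_zero 𝕜 q M)

set_option synthInstance.maxHeartbeats 400000 in
/-- **`Psi` is a meter.** -/
theorem isMeter (hg : GoodRed A M)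
    (ho₁ : ∀ e, (12 : ℤ) ≤ (((pairHyp A M q hq hqM hA hg).nodeData.p₁ e :
      Place 𝕜 (Igusa.E 𝕜 M))).ord (hsE 𝕜 q M))
    (ho₂ : ∀ e, (12 : ℤ) ≤ (((pairHyp A M q hq hqM hA hg).nodeData.p₂ e :
      Place 𝕜 (Igusa.E 𝕜 M))).ord (hsE 𝕜 q M)) :
    Fermat.Agent.MR.PLC.Abs.IsMeter (Fb := fun _ : Fin 2 => Igusa.E 𝕜 M) (TT A M q hq hqM hA)
      (q : Kbar) (xiC M q) (pairHyp A M q hq hqM hA hg).nodeData (12 * m) (Psi M q Φ G) where
  pos := by have := hB.1; omega
  dich := by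
    intro w w'
    by_cases h : w = w'
    · subst h
      left
      rw [TT_red_Psi_self A M q hq hqM hA hB]
      exact inv_ne_zero (hsE_pow_ne_zero A M q hB)
    · right
      rw [TT_red_Psi_other A M q hq hqM hA hB h]
      exact hsE_pow_ne_zero A M q hB
  self := by
    intro w
    rw [TT_red_Psi_self A M q hq hqM hA hB]
    exact inv_ne_zero (hsE_pow_ne_zero A M q hB)
  reg := fun w => exists_mem_rr_xiC M q hq hqM (Psi_inv_mem_regOff M q hq hqM hB w)
  unit₁ := by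
    intro e
    show ((TT A M q hq hqM hA).R 0).red (Psi M q Φ G 1) ≠ 0
    rw [TT_red_Psi_other A M q hq hqM hA hB (by decide)]
    exact hsE_pow_ne_zero A M q hB
  unit₂ := by
    intro e
    show ((TT A M q hq hqM hA).R 1).red (Psi M q Φ G 0) ≠ 0
    rw [TT_red_Psi_other A M q hq hqM hA hB (by decide)]
    exact hsE_pow_ne_zero A M q hB
  ord₁ := by
    intro e
    show ((12 * m : ℕ) : ℤ) ≤ (((pairHyp A M q hq hqM hA hg).nodeData.p₁ e :
      Place 𝕜 (Igusa.E 𝕜 M))).ord (((TT A M q hq hqM hA).R 0).red (Psi M q Φ G 1))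
    rw [TT_red_Psi_other A M q hq hqM hA hB (by decide), RED.ord_pow]
    have := ho₁ e
    push_cast
    nlinarith [Nat.cast_nonneg (α := ℤ) m]
  ord₂ := by
    intro e
    show ((12 * m : ℕ) : ℤ) ≤ (((pairHyp A M q hq hqM hA hg).nodeData.p₂ e :
      Place 𝕜 (Igusa.E 𝕜 M))).ord (((TT A M q hq hqM hA).R 1).red (Psi M q Φ G 0))
    rw [TT_red_Psi_other A M q hq hqM hA hB (by decide), RED.ord_pow]
    have := ho₂ e
    push_cast
    nlinarith [Nat.cast_nonneg (α := ℤ) m]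

end Fermat.Agent.MR.PLC.Met
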