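import Fermat.Agent.MR.PLC.Met.Thick

/-!
# MR / PLC / Met : the nodes of the Deligne-Rapoport pair are not cusps (corollary of `Thick`: both branches are supersingular points)
-/

set_option autoImplicit false
set_option linter.unusedSectionVars false
set_option synthInstance.maxHeartbeats 400000

noncomputable section

namespace Fermat.Agent.MR.PLC.Met

open Polynomial ModularCurve AlgebraicCurve Fermat.Agent.S24 Fermat.Agent.S28 Fermat.Agent.GAL
  Fermat.Agent.GAL.Gauss Fermat.Agent.GAL.RED Fermat.Agent.DR Fermat.Agent.DR.Gal Fermat.Agent.DR.Conc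
  Fermat.Agent.S36R.Unit Fermat.Agent.S36.Kron Fermat.Agent.Lib.RR

variable (A : ValuationSubring Kbar) (M q : ℕ) [NeZero M] [NeZero q] (hq : q.Prime)
  (hqM : ¬ q ∣ M) (hA : A.LiesOverPrime q)
  [Fact q.Prime] [CharP (IsLocalRing.ResidueField ↥A) q] [PerfectRing (IsLocalRing.ResidueField ↥A) q]
  [IsAlgClosed (IsLocalRing.ResidueField ↥A)]
  [Lib.RR.IsFF (IsLocalRing.ResidueField ↥A) (Igusa.E (IsLocalRing.ResidueField ↥A) M)]
  [Lib.RR.IsFF Kbar (FN (M * q))] [Lib.RR.IsFF Kbar (FN M)]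

/-- **(N1)** the two branches of a node are not cusps. -/
theorem nodes_nonCusp (hneat : 4 ∣ M ∨ 9 ∣ M) (hg : GoodRed A M)
    (e : ↥(pairHyp A M q hq hqM hA hg).filt.nodes) :
    0 ≤ e.1.ord (Igusa.jb (IsLocalRing.ResidueField ↥A) M) ∧
      0 ≤ ((frobX (IsLocalRing.ResidueField ↥A) M q).Φ e.1).ord
        (Igusa.jb (IsLocalRing.ResidueField ↥A) M) :=
  ⟨ord_jb_nonneg_of_mem_SS _ q M (mem_SS_of_mem_nodes A M q hq hqM hA hneat hg e.2),
    ord_jb_nonneg_of_mem_SS _ q M (Φ_mem_SS A M q hq hqM hA hneat hg e.2)⟩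

end Fermat.Agent.MR.PLC.Met
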