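import Fermat.Agent.DR.Conc.Main
import Fermat.Agent.S36.RC.Conc.Hasse

/-!
# MR / PLC / MET : the meters `Ψ 0`, `Ψ 1` on `FN (M q)`

`(Φ, U, G, m, c)` = the data of S28, block B at the prime `q` (`hB : S28.BData q Φ U G m c`).
* `psi0 = ψ(j, j_q) = (q¹² Δ(t^q)/Δ(t))^m` vanishes to the order `12 m` along the component `0` (`R1`), unit along `1`;
* `psi1 = ψ(j_q, j) = (Δ(t)/Δ(t^q))^m = W psi0` vanishes to the order `12 m` along the component `1` (`R2`), unit along `0`;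
* `psi0 * psi1 = q ^ (12 m)`; both are Galois invariant and are units off the cusps;
* `hsE = red₀ psi1 = red₁ psi0 = Δ̄^((1-q) m)`.
-/

set_option autoImplicit false
set_option linter.unusedSectionVars false

noncomputable section

namespace Fermat.Agent.MR.PLC.Met

open ModularCurve AlgebraicCurve Polynomial Fermat.Agent.S24 Fermat.Agent.GAL Fermat.Agent.GAL.Gauss
  Fermat.Agent.GAL.RED Fermat.Agent.DR.Gal Fermat.Agent.DR.Conc Fermat.Agent.Lib.RR
  Fermat.Agent.S28 Fermat.Agent.S36R.Unit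

variable (M q : ℕ) [NeZero M] [NeZero q] (hq : q.Prime) (hqM : ¬ q ∣ M)
variable (Φ G : ℤ[X][X])

/-- `(q¹² Δ(t^q)/Δ(t))^m`. -/
def psi0 : FN (M * q) := psiOf Φ G (jN M q) (jqN M q)

/-- `(Δ(t)/Δ(t^q))^m`. -/
def psi1 : FN (M * q) := psiOf Φ G (jqN M q) (jN M q)

/-- `Psi i` vanishes along the component `i`. -/
def Psi : Fin 2 → FN (M * q) := ![psi0 M q Φ G, psi1 M q Φ G]

@[simp] theorem Psi_zero : Psi M q Φ G 0 = psi0 M q Φ G := rfl

@[simp] theorem Psi_one : Psi M q Φ G 1 = psi1 M q Φ G := rfl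

theorem W_psi0 : W M q hq hqM (psi0 M q Φ G) = psi1 M q Φ G := by
  have h := map_psiOf ((W M q hq hqM : FN (M * q) ≃ₐ[Kbar] FN (M * q)) :
    FN (M * q) →+* FN (M * q)) Φ G (jN M q) (jqN M q)
  have e1 : ((W M q hq hqM : FN (M * q) ≃ₐ[Kbar] FN (M * q)) :
    FN (M * q) →+* FN (M * q)) (jN M q) = jqN M q := W_jN M q hq hqM
  have e2 : ((W M q hq hqM : FN (M * q) ≃ₐ[Kbar] FN (M * q)) :
    FN (M * q) →+* FN (M * q)) (jqN M q) = jN M q := W_jqN M q hq hqM
  rw [e1, e2] at h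
  exact h

theorem W_psi1 : W M q hq hqM (psi1 M q Φ G) = psi0 M q Φ G := by
  rw [← W_psi0 M q hq hqM, W_W]

/-- LEAF PS-A.  As in `DR.Conc.gal_xC` (`DR/Conc/Xi.lean`): `σ • ·` is the ring automorphism `arithmeticRingAut`, it fixes
`jN`, `jqN`; `map_psiOf`. -/
theorem gal_Psi (i : Fin 2) (σ : Kbar ≃ₐ[ℚ] Kbar) :
    arithmeticGalois (modularFunctionFieldFull (M * q)) σ • Psi M q Φ G i = Psi M q Φ G i := by
  have h1 : arithmeticRingAut (modularFunctionFieldFull (M * q)) σ (jN M q) = jN M q := by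
    apply Subtype.ext
    rw [coe_arithmeticRingAut_apply, coe_jN, coeffMap_jqModC]
  have h2 : arithmeticRingAut (modularFunctionFieldFull (M * q)) σ (jqN M q) = jqN M q := by
    apply Subtype.ext
    rw [coe_arithmeticRingAut_apply, coe_jqN, coeffMap_qExpand, coeffMap_jqModC]
  show arithmeticRingAut (modularFunctionFieldFull (M * q)) σ (Psi M q Φ G i) = _
  have h3 := map_psiOf (arithmeticRingAut (modularFunctionFieldFull (M * q)) σ :
    FN (M * q) →+* FN (M * q)) Φ G (jN M q) (jqN M q)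
  have h4 := map_psiOf (arithmeticRingAut (modularFunctionFieldFull (M * q)) σ :
    FN (M * q) →+* FN (M * q)) Φ G (jqN M q) (jN M q)
  simp only [RingEquiv.coe_toRingHom] at h3 h4
  rw [h1, h2] at h3 h4
  fin_cases i
  · exact h3
  · exact h4

variable {Φ G} {U : ℤ[X][X]} {m : ℕ} {c : ℤ} (hB : BData q Φ U G m c)

include hq hB

/-- LEAF PS-A.  `map_psiOf` for `algebraMap (FN (M q)) (LaurentSeries Kbar)`, `coe_jN`, `coe_jqN`, `psiOf_up`
(`ζ` : `DR.Conc.JqBound_exists_zeta q`). -/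
theorem coe_psi0 : ((psi0 M q Φ G : FN (M * q)) : LaurentSeries Kbar) =
    ((q : LaurentSeries Kbar) ^ 12 * qExpand Kbar q (DlL Kbar) * DlLinv Kbar) ^ m := by
  obtain ⟨ζ, hζ⟩ : ∃ ζ : Kbarˣ, IsPrimitiveRoot ζ q := by
    obtain ⟨ζ, hζ⟩ := HasEnoughRootsOfUnity.exists_primitiveRoot Kbar q
    exact ⟨(hζ.isUnit (NeZero.ne q)).unit, IsPrimitiveRoot.coe_units_iff.1 (by simpa using hζ)⟩
  have h := map_psiOf (algebraMap (FN (M * q)) (LaurentSeries Kbar)) Φ G (jN M q) (jqN M q)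
  have e1 : algebraMap (FN (M * q)) (LaurentSeries Kbar) (jN M q) = jqModC Kbar := coe_jN M q
  have e2 : algebraMap (FN (M * q)) (LaurentSeries Kbar) (jqN M q) = qExpand Kbar q (jqModC Kbar) :=
    coe_jqN M q
  rw [e1, e2, psiOf_up hB hq ζ hζ] at h
  exact h

/-- LEAF PS-A.  `psiOf_down`. -/
theorem coe_psi1 : ((psi1 M q Φ G : FN (M * q)) : LaurentSeries Kbar) =
    (DlL Kbar * qExpand Kbar q (DlLinv Kbar)) ^ m := by
  obtain ⟨ζ, hζ⟩ : ∃ ζ : Kbarˣ, IsPrimitiveRoot ζ q := by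
    obtain ⟨ζ, hζ⟩ := HasEnoughRootsOfUnity.exists_primitiveRoot Kbar q
    exact ⟨(hζ.isUnit (NeZero.ne q)).unit, IsPrimitiveRoot.coe_units_iff.1 (by simpa using hζ)⟩
  have h := map_psiOf (algebraMap (FN (M * q)) (LaurentSeries Kbar)) Φ G (jqN M q) (jN M q)
  have e1 : algebraMap (FN (M * q)) (LaurentSeries Kbar) (jN M q) = jqModC Kbar := coe_jN M q
  have e2 : algebraMap (FN (M * q)) (LaurentSeries Kbar) (jqN M q) = qExpand Kbar q (jqModC Kbar) :=
    coe_jqN M q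
  rw [e1, e2, psiOf_down hB hq ζ hζ] at h
  exact h

/-- LEAF PS-A.  Compare the expansions (`Subtype.ext`, `coe_psi0`, `coe_psi1`, `DlL_mul_DlLinv`, `map_mul`, `map_one`). -/
theorem psi0_mul_psi1 : psi0 M q Φ G * psi1 M q Φ G = (q : FN (M * q)) ^ (12 * m) := by
  apply (algebraMap (FN (M * q)) (LaurentSeries Kbar)).injective
  have e0 : algebraMap (FN (M * q)) (LaurentSeries Kbar) (psi0 M q Φ G) = _ := coe_psi0 M q hq hB
  have e1 : algebraMap (FN (M * q)) (LaurentSeries Kbar) (psi1 M q Φ G) = _ := coe_psi1 M q hq hB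
  have h1 : DlL Kbar * DlLinv Kbar = 1 := DlL_mul_DlLinv Kbar
  have h2 : qExpand Kbar q (DlL Kbar) * qExpand Kbar q (DlLinv Kbar) = 1 := by
    rw [← map_mul, h1, map_one]
  have key : ((q : LaurentSeries Kbar) ^ 12 * qExpand Kbar q (DlL Kbar) * DlLinv Kbar) *
      (DlL Kbar * qExpand Kbar q (DlLinv Kbar)) = (q : LaurentSeries Kbar) ^ 12 := by
    linear_combination ((q : LaurentSeries Kbar) ^ 12 * qExpand Kbar q (DlL Kbar) *
      qExpand Kbar q (DlLinv Kbar)) * h1 + (q : LaurentSeries Kbar) ^ 12 * h2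
  rw [map_mul, e0, e1, map_pow, map_natCast, ← mul_pow, key, pow_mul]

theorem natCast_FN_ne_zero : (q : FN (M * q)) ≠ 0 := Nat.cast_ne_zero.mpr hq.ne_zero

theorem psi0_ne_zero : psi0 M q Φ G ≠ 0 := by
  intro h
  have h1 := psi0_mul_psi1 M q hq hB
  rw [h, zero_mul] at h1
  exact pow_ne_zero _ (Nat.cast_ne_zero.mpr hq.ne_zero) h1.symm

theorem psi1_ne_zero : psi1 M q Φ G ≠ 0 := by
  intro h
  have h1 := psi0_mul_psi1 M q hq hB
  rw [h, mul_zero] at h1
  exact pow_ne_zero _ (Nat.cast_ne_zero.mpr hq.ne_zero) h1.symm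

end Fermat.Agent.MR.PLC.Met
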