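import Fermat.Agent.MR.PLC.Met.Psi
import Fermat.Agent.S36R.Unit.IntCrit

/-!
# MR / PLC / MET : the meters are units off the cusps
-/

set_option autoImplicit false
set_option linter.unusedSectionVars false

noncomputable section

namespace Fermat.Agent.MR.PLC.Met

open ModularCurve AlgebraicCurve Polynomial Fermat.Agent.S24 Fermat.Agent.GAL Fermat.Agent.GAL.Gauss
  Fermat.Agent.GAL.RED Fermat.Agent.DR.Gal Fermat.Agent.DR.Conc Fermat.Agent.Lib.RR
  Fermat.Agent.S28 Fermat.Agent.S36R.Unit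

variable (M q : ℕ) [NeZero M] [NeZero q] (hq : q.Prime) (hqM : ¬ q ∣ M)
variable {Φ G U : ℤ[X][X]} {m : ℕ} {c : ℤ} (hB : BData q Φ U G m c)

include hq hB

/-- LEAF PS-B.  `u₀ = q¹² Δ(t^q)/Δ(t) ∈ Kbar((t))` is a root of the monic polynomial `U.map (evJ Kbar)`: apply
`coeffMap (Int.castRingHom Kbar)` to the 6th component of `hB` (as in `S36.RC.exists_hasse_poly₀`), so `u₀`, hence
`u₀ ^ m = (psi0 : LaurentSeries Kbar)`, is integral over `Kbar[j(t)]`; descend the integrality from `LaurentSeries Kbar` to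
`FN (M q)` (`S36R.Unit.IntCrit_isIntegral_map_iff` with `φ = (FN (M q)).val`, `coe_jN`). -/
theorem isIntegral_psi0 : IsIntegral (Algebra.adjoin Kbar {jN M q}) (psi0 M q Φ G) := by
  have h6 := hB.2.2.2.2.2.1
  have h7 := map_eval_evY (coeffMap (Int.castRingHom Kbar)) (jqModC ℤ)
    ((q : LaurentSeries ℤ) ^ 12 * qExpand ℤ q (DlL ℤ) * DlLinv ℤ) U
  have h8 : (U.map (evY (jqModC ℤ))).eval
      ((q : LaurentSeries ℤ) ^ 12 * qExpand ℤ q (DlL ℤ) * DlLinv ℤ) = 0 := h6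
  rw [h8, map_zero, coeffMap_jqModC, map_mul, map_mul, map_pow, map_natCast,
    ModularCurve.coeffMap_qExpand, coeffMap_DlL, coeffMap_DlLinv] at h7
  have h9 : IsIntegral (Algebra.adjoin Kbar {jqModC Kbar})
      ((q : LaurentSeries Kbar) ^ 12 * qExpand Kbar q (DlL Kbar) * DlLinv Kbar) := by
    refine isIntegral_of_evY U hB.2.2.1 (jqModC Kbar) _ ?_ h7.symm
    exact isIntegral_algebraMap (R := Algebra.adjoin Kbar {jqModC Kbar})
      (A := LaurentSeries Kbar)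
      (x := ⟨jqModC Kbar, Algebra.subset_adjoin (Set.mem_singleton _)⟩)
  have h10 := h9.pow m
  rw [← coe_psi0 M q hq hB] at h10
  have h11 := IntCrit_isIntegral_map_iff (modularFunctionFieldBar (M * q)).val (jN M q)
    (psi0 M q Φ G)
  have e1 : (modularFunctionFieldBar (M * q)).val (jN M q) = jqModC Kbar := coe_jN M q
  rw [e1] at h11
  exact h11.1 h10

include hqM in
/-- LEAF PS-B.  `psi0`: `Igusa.mem_place_of_isIntegral` + `isIntegral_psi0`.  `psi1 = W psi0` is integral over `Kbar[j_q]` (transport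
by `W` as in `DR.Conc.isIntegral_jN`), and `j_q ∈ P ↔ j ∈ P` (`jqN_mem_place_iff`). -/
theorem Psi_mem_regOff (i : Fin 2) : Psi M q Φ G i ∈ regOff Kbar (jN M q) := by
  intro P hP
  fin_cases i
  · exact Igusa.mem_place_of_isIntegral P hP (isIntegral_psi0 M q hq hB)
  · have h1 := (IntCrit_isIntegral_map_iff
      ((W M q hq hqM : FN (M * q) ≃ₐ[Kbar] FN (M * q)) : FN (M * q) →ₐ[Kbar] FN (M * q))
      (jN M q) (psi0 M q Φ G)).2 (isIntegral_psi0 M q hq hB)
    have e1 : ((W M q hq hqM : FN (M * q) ≃ₐ[Kbar] FN (M * q)) :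
      FN (M * q) →ₐ[Kbar] FN (M * q)) (jN M q) = jqN M q := W_jN M q hq hqM
    have e2 : ((W M q hq hqM : FN (M * q) ≃ₐ[Kbar] FN (M * q)) :
      FN (M * q) →ₐ[Kbar] FN (M * q)) (psi0 M q Φ G) = psi1 M q Φ G := W_psi0 M q hq hqM Φ G
    rw [e1, e2] at h1
    exact Igusa.mem_place_of_isIntegral P ((jqN_mem_place_iff M q hq hqM P).2 hP) h1

include hqM in
/-- LEAF PS-B.  `(psi0)⁻¹ = psi1 / q ^ (12 m)`, `(psi1)⁻¹ = psi0 / q ^ (12 m)` (`psi0_mul_psi1`); `regOff` is a `Kbar`-subalgebra. -/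
theorem Psi_inv_mem_regOff (i : Fin 2) : (Psi M q Φ G i)⁻¹ ∈ regOff Kbar (jN M q) := by
  have hmul := psi0_mul_psi1 M q hq hB
  have hq0 : (q : FN (M * q)) ^ (12 * m) ≠ 0 := pow_ne_zero _ (natCast_FN_ne_zero M q hq hB)
  have hc : ((q : FN (M * q)) ^ (12 * m))⁻¹ ∈ regOff Kbar (jN M q) := by
    have e : ((q : FN (M * q)) ^ (12 * m))⁻¹
        = algebraMap Kbar (FN (M * q)) (((q : Kbar) ^ (12 * m))⁻¹) := by
      rw [map_inv₀, map_pow, map_natCast]
    rw [e]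
    exact Subalgebra.algebraMap_mem _ _
  have h0 := psi0_ne_zero M q hq hB
  have h1 := psi1_ne_zero M q hq hB
  fin_cases i
  · have e : (psi0 M q Φ G)⁻¹ = psi1 M q Φ G * ((q : FN (M * q)) ^ (12 * m))⁻¹ := by
      rw [← hmul]
      field_simp
    change (psi0 M q Φ G)⁻¹ ∈ _
    rw [e]
    exact Subalgebra.mul_mem _ (Psi_mem_regOff M q hq hqM hB 1) hc
  · have e : (psi1 M q Φ G)⁻¹ = psi0 M q Φ G * ((q : FN (M * q)) ^ (12 * m))⁻¹ := by
      rw [← hmul]
      field_simp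
    change (psi1 M q Φ G)⁻¹ ∈ _
    rw [e]
    exact Subalgebra.mul_mem _ (Psi_mem_regOff M q hq hqM hB 0) hc

end Fermat.Agent.MR.PLC.Met
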