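import Fermat.Agent.MR.PLC.Met.SSReg
import Fermat.Agent.MR.PLC.Met.PsiRed
import Fermat.Agent.MR.PLC.Met.PsiReg

/-!
# MR / PLC / Met : the test functions `G = u ^ b (Δ(t^q)/Δ(t))^m`, `u = 1 / den(j)` (first chart), `u = 1 / num(j)` (second chart)

They are regular off the poles (resp. the zeros) of the coordinate `xC`, `R1`-integral, and their reductions have poles at the supersingular points.
-/

set_option autoImplicit false
set_option linter.unusedSectionVars false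

noncomputable section

namespace Fermat.Agent.MR.PLC.Met

open Polynomial ModularCurve AlgebraicCurve Fermat.Agent.S24 Fermat.Agent.S28 Fermat.Agent.GAL
  Fermat.Agent.GAL.Gauss Fermat.Agent.GAL.RED Fermat.Agent.DR.Gal Fermat.Agent.DR.Conc
  Fermat.Agent.S36R.Unit Fermat.Agent.S36.Kron Fermat.Agent.Lib.RR

variable (A : ValuationSubring Kbar) (M q : ℕ) [NeZero M] [NeZero q] (hq : q.Prime)
  (hqM : ¬ q ∣ M) (hA : A.LiesOverPrime q)
  [Fact q.Prime] [CharP (IsLocalRing.ResidueField ↥A) q] [PerfectRing (IsLocalRing.ResidueField ↥A) q]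
  [IsAlgClosed (IsLocalRing.ResidueField ↥A)]
  [Lib.RR.IsFF (IsLocalRing.ResidueField ↥A) (Igusa.E (IsLocalRing.ResidueField ↥A) M)]
  [Lib.RR.IsFF Kbar (FN (M * q))]

include A hq hqM hA in
/-- functions regular off the poles of `ξ(j)` are regular off the poles of `xC`. -/
theorem regOff_xi_le : regOff Kbar (xiOf (q ^ 2) (jN M q)) ≤ regOff Kbar (xC M q) := by
  have h := regOff_le_of_poleDiv_mul (poleDiv_xC A M q hq hqM hA)
  rwa [alpha_xiM, beta_xiM] at h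

include A hq hqM hA in
/-- functions regular off the zeros of `ξ(j)` are regular off the zeros of `xC`. -/
theorem regOff_xi_inv_le : regOff Kbar (xiOf (q ^ 2) (jN M q))⁻¹ ≤ regOff Kbar (xC M q)⁻¹ := by
  have h := regOff_le_of_poleDiv_mul (poleDiv_xC_inv A M q hq hqM hA)
  rwa [alpha_xiM, beta_xiM, ← mul_inv] at h

/-- **Leaf SS-C1.**  PROOF. `jN M q ∈ R1.O` (`mem_of_red_ne_zero`, `R1_red_jN`, `jb_ne_zero'`); as in `DR/Conc/Xi.lean: RedData_red_xiOf` :
`R.red (xiDen n t) = xiDen n (R.red t)`, `R.red (xiNum n t) = xiNum n (R.red t)` for `t ∈ R.O` (`red_add`, `red_sub`, `red_pow`, `red_one`); `R1_red_jN`; `R.red_inv`. -/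
theorem R1_red_den_inv :
    (R1 A M q hq hqM hA).red (xiDen (q ^ 2) (jN M q))⁻¹ =
        (xiDen (q ^ 2) (Igusa.jb (IsLocalRing.ResidueField ↥A) M))⁻¹ ∧
    (R1 A M q hq hqM hA).red (xiNum (q ^ 2) (jN M q))⁻¹ =
        (xiNum (q ^ 2) (Igusa.jb (IsLocalRing.ResidueField ↥A) M))⁻¹ := by
  have hr := R1_red_jN A M q hq hqM hA
  have ht : jN M q ∈ (R1 A M q hq hqM hA).O := by
    apply (R1 A M q hq hqM hA).mem_of_red_ne_zero
    rw [hr]
    exact jb_ne_zero' _ M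
  have hy : yOf (q ^ 2) (jN M q) ∈ (R1 A M q hq hqM hA).O := sub_mem (pow_mem ht _) ht
  have hyr : (R1 A M q hq hqM hA).red (yOf (q ^ 2) (jN M q)) =
      yOf (q ^ 2) ((R1 A M q hq hqM hA).red (jN M q)) := by
    rw [yOf, (R1 A M q hq hqM hA).red_sub (pow_mem ht _) ht, (R1 A M q hq hqM hA).red_pow, yOf]
  have h1 : (1 : FN (M * q)) ∈ (R1 A M q hq hqM hA).O := one_mem _
  have hnumr : (R1 A M q hq hqM hA).red (xiNum (q ^ 2) (jN M q)) =
      xiNum (q ^ 2) ((R1 A M q hq hqM hA).red (jN M q)) := by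
    rw [xiNum, (R1 A M q hq hqM hA).red_add (pow_mem hy 2) h1, (R1 A M q hq hqM hA).red_pow, hyr,
      (R1 A M q hq hqM hA).red_one, xiNum]
  have hdenr : (R1 A M q hq hqM hA).red (xiDen (q ^ 2) (jN M q)) =
      xiDen (q ^ 2) ((R1 A M q hq hqM hA).red (jN M q)) := by
    rw [xiDen, (R1 A M q hq hqM hA).red_add (add_mem (pow_mem hy 2) hy) h1,
      (R1 A M q hq hqM hA).red_add (pow_mem hy 2) hy, (R1 A M q hq hqM hA).red_pow,
      hyr, (R1 A M q hq hqM hA).red_one, xiDen]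
  constructor
  · rw [(R1 A M q hq hqM hA).red_inv, hdenr, hr]
  · rw [(R1 A M q hq hqM hA).red_inv, hnumr, hr]

variable {Φ U G : ℤ[X][X]} {m : ℕ} {c : ℤ}

/-- **Leaf SS-C2** (abstract computation of the order).  `u⁻¹` regular at `P`, `0 < ord_P h`, `0 < m` : `ord_P ((u⁻¹)⁻¹… )`.
PROOF. `d ≠ 0`, `h ≠ 0` (else `ord = 0`: `P.ord_zero`); `P.ord_mul`, `ord_pow`, `P.ord_inv` : `ord = - b ord d - m ord h < 0` (`nlinarith` / `positivity`). -/
theorem ord_test_neg {k Fb : Type*} [Field k] [Field Fb] [Algebra k Fb] (P : Place k Fb) {d h : Fb}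
    (hd0 : d ≠ 0) (hd : 0 ≤ P.ord d) (hh : 0 < P.ord h) {m : ℕ} (hm : 0 < m) (b : ℕ) :
    P.ord (d⁻¹ ^ b * (h ^ m)⁻¹) < 0 := by
  have hh0 : h ≠ 0 := by
    rintro rfl
    rw [P.ord_zero] at hh
    exact lt_irrefl _ hh
  rw [P.ord_mul (pow_ne_zero _ (inv_ne_zero hd0)) (inv_ne_zero (pow_ne_zero _ hh0)),
    P.ord_inv, ord_pow, ord_pow, P.ord_inv]
  have h1 : 0 ≤ (b : ℤ) * P.ord d := by positivity
  have h2 : 0 < (m : ℤ) * P.ord h := by positivity
  nlinarith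

/-- the common part of the two charts. -/
theorem exists_G_aux (hB : BData q Φ U G m c) {x' u : FN (M * q)}
    {d : Igusa.E (IsLocalRing.ResidueField ↥A) M} (hu : u ∈ regOff Kbar x')
    (hut : u * jN M q ∈ regOff Kbar x') (hd0 : d ≠ 0) (hred : (R1 A M q hq hqM hA).red u = d⁻¹)
    {P : Place (IsLocalRing.ResidueField ↥A) (Igusa.E (IsLocalRing.ResidueField ↥A) M)}
    (hd : 0 ≤ P.ord d) (hP : P ∈ SS (IsLocalRing.ResidueField ↥A) q M) :
    ∃ G₀ : FN (M * q), G₀ ∈ regOff Kbar x' ∧ G₀ ∈ (R1 A M q hq hqM hA).O ∧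
      P.ord ((R1 A M q hq hqM hA).red G₀) < 0 := by
  set ψ : FN (M * q) := psi0 M q Φ G / algebraMap Kbar (FN (M * q)) (q : Kbar) ^ (12 * m) with hψ
  have hψred : (R1 A M q hq hqM hA).red ψ = (hsE (IsLocalRing.ResidueField ↥A) q M ^ m)⁻¹ :=
    R1_red_psi0_div A M q hq hqM hA hB
  have hψreg : ψ ∈ regOff Kbar (jN M q) := by
    rw [hψ, div_eq_mul_inv, ← map_pow, ← map_inv₀]
    exact mul_mem (Psi_mem_regOff M q hq hqM hB 0) (Subalgebra.algebraMap_mem _ _)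
  obtain ⟨b, hb⟩ := exists_mem_rr_of_mem_regOff hψreg
  have huO : u ∈ (R1 A M q hq hqM hA).O := by
    apply (R1 A M q hq hqM hA).mem_of_red_ne_zero
    rw [hred]
    exact inv_ne_zero hd0
  have hψO : ψ ∈ (R1 A M q hq hqM hA).O := by
    apply (R1 A M q hq hqM hA).mem_of_red_ne_zero
    rw [hψred]
    exact inv_ne_zero (pow_ne_zero _ (hsE_ne_zero _ q M))
  refine ⟨u ^ b * ψ, pow_mul_mem_regOff hu hut hb, mul_mem (pow_mem huO b) hψO, ?_⟩
  rw [(R1 A M q hq hqM hA).red_mul (pow_mem huO b) hψO, (R1 A M q hq hqM hA).red_pow, hred, hψred]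
  exact ord_test_neg P hd0 hd ((mem_SS _ q M).1 hP) hB.1 b

/-- **first chart.** -/
theorem exists_G_chart1 (hB : BData q Φ U G m c)
    {P : Place (IsLocalRing.ResidueField ↥A) (Igusa.E (IsLocalRing.ResidueField ↥A) M)}
    (hP : P ∈ SS (IsLocalRing.ResidueField ↥A) q M) :
    ∃ G₀ : FN (M * q), G₀ ∈ regOff Kbar (xC M q) ∧ G₀ ∈ (R1 A M q hq hqM hA).O ∧
      P.ord ((R1 A M q hq hqM hA).red G₀) < 0 :=
  exists_G_aux A M q hq hqM hA hB
    (regOff_xi_le A M q hq hqM hA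
      (xiDen_inv_mem_regOff (two_le_sq q hq) (Coord_transcendental_jN M q)))
    (regOff_xi_le A M q hq hqM hA
      (xiDen_inv_mul_mem_regOff (two_le_sq q hq) (Coord_transcendental_jN M q)))
    (xiDen_ne_zero (two_le_sq q hq) (Igusa.transcendental_jb (IsLocalRing.ResidueField ↥A) M))
    (R1_red_den_inv A M q hq hqM hA).1
    (ord_xiDen_nonneg P (ord_jb_nonneg_of_mem_SS _ q M hP) _).1 hP

/-- **second chart.** -/
theorem exists_G_chart2 (hB : BData q Φ U G m c)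
    {P : Place (IsLocalRing.ResidueField ↥A) (Igusa.E (IsLocalRing.ResidueField ↥A) M)}
    (hP : P ∈ SS (IsLocalRing.ResidueField ↥A) q M) :
    ∃ G₀ : FN (M * q), G₀ ∈ regOff Kbar (xC M q)⁻¹ ∧ G₀ ∈ (R1 A M q hq hqM hA).O ∧
      P.ord ((R1 A M q hq hqM hA).red G₀) < 0 :=
  exists_G_aux A M q hq hqM hA hB
    (regOff_xi_inv_le A M q hq hqM hA
      (xiNum_inv_mem_regOff (two_le_sq q hq) (Coord_transcendental_jN M q)))
    (regOff_xi_inv_le A M q hq hqM hA
      (xiNum_inv_mul_mem_regOff (two_le_sq q hq) (Coord_transcendental_jN M q)))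
    (xiNum_ne_zero (two_le_sq q hq) (Igusa.transcendental_jb (IsLocalRing.ResidueField ↥A) M))
    (R1_red_den_inv A M q hq hqM hA).2
    (ord_xiDen_nonneg P (ord_jb_nonneg_of_mem_SS _ q M hP) _).2 hP

end Fermat.Agent.MR.PLC.Met
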