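import Fermat.Agent.DR.Abs.Defs
import Fermat.Agent.S36.Abs.LyingOver.Main
import Fermat.Agent.DR.Conc.XiAbs

/-!
# MR / PLC / Met : `IsPreNodal` is symmetric in the two charts `x ↔ x⁻¹`
-/

set_option autoImplicit false
set_option linter.unusedSectionVars false

noncomputable section

namespace Fermat.Agent.MR.PLC.Met

open AlgebraicCurve Fermat.Agent.Lib.RR Fermat.Agent.GAL Fermat.Agent.GAL.RED Fermat.Agent.DR.Abs
  Fermat.Agent.S36.Abs Fermat.Agent.DR.Conc Fermat.Agent.DR.Gal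

section nodal

variable {K F k : Type*} [Field K] [Field F] [Algebra K F] [Field k] {ι : Type*}
  {Fb : ι → Type*} [∀ i, Field (Fb i)] [∀ i, Algebra k (Fb i)] {E : Type*}
  [IsFF K F] [IsAlgClosed K] [∀ i, IsFF k (Fb i)] [IsAlgClosed k]

/-- **Leaf SS-A1.**  The definition of `IsPreNodal` is symmetric in `x ↔ x⁻¹`.
PROOF. `cart, sep, inj` : the same.  For every `i` : `(T.R i).red x⁻¹ = ((T.R i).red x)⁻¹`
(`x, x⁻¹ ∈ (T.R i).O`; `(T.R i).red_mul`, `(T.R i).red_one`, `eq_inv_of_mul_eq_one_left`; or look for `RedData.red_inv`).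
`nonconst` : if `(red x)⁻¹ = algebraMap c` then `red x = algebraMap c⁻¹` (`map_inv₀`, `inv_inv`).  `unit₁/₂` : `Place.ord_inv`, `neg_eq_zero`.
`mem_iff a b` : `bipole K x⁻¹ a b = bipole K x b a` (unfold `bipole`, `inv_inv`, `add_comm`), the same for `bipole k (red x)⁻¹ a b`,
so `T.Bounded x⁻¹ a b z ↔ T.Bounded x b a z`; use `h.mem_iff b a (by omega) z`. -/
theorem isPreNodal_inv {T : MultiRed K F k Fb} {x : F} {N : NodeData k Fb E} {a₀ : ℕ}
    (h : IsPreNodal T x N a₀) (hx : x ∈ T.O) (hx' : x⁻¹ ∈ T.O) : IsPreNodal T x⁻¹ N a₀ := by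
  have hb : ∀ a b : ℕ, bipole K x⁻¹ a b = bipole K x b a := by
    intro a b
    unfold bipole
    rw [inv_inv, add_comm]
  have hb' : ∀ (i : ι) (a b : ℕ), bipole k ((T.R i).red x⁻¹) a b = bipole k ((T.R i).red x) b a := by
    intro i a b
    unfold bipole
    rw [(T.R i).red_inv, inv_inv, add_comm]
  refine ⟨h.cart, h.sep, h.inj, ?_, ?_, ?_, ?_⟩
  · rintro i ⟨c, hc⟩
    apply h.nonconst i
    refine ⟨c⁻¹, ?_⟩
    rw [map_inv₀, hc, (T.R i).red_inv, inv_inv]
  · intro e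
    rw [(T.R _).red_inv, Place.ord_inv, h.unit₁ e, neg_zero]
  · intro e
    rw [(T.R _).red_inv, Place.ord_inv, h.unit₂ e, neg_zero]
  · intro a b hab z
    rw [hb, h.mem_iff b a (by omega) z]
    have : T.Bounded x⁻¹ a b z ↔ T.Bounded x b a z := by
      unfold MultiRed.Bounded
      simp only [hb']
    rw [this]

end nodal

end Fermat.Agent.MR.PLC.Met
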