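import Fermat.Agent.S36.E.Symm.Partner
import Fermat.Agent.S36.Abs.LyingOver.Main
import Fermat.Agent.DR.Conc.XiAbs

/-!
# MR / PLC / Met : a pole of the reduction of a regular function is the first branch of a node
-/

set_option autoImplicit false
set_option linter.unusedSectionVars false

noncomputable section

namespace Fermat.Agent.MR.PLC.Met

open AlgebraicCurve Fermat.Agent.Lib.RR Fermat.Agent.GAL Fermat.Agent.GAL.RED Fermat.Agent.DR.Abs
  Fermat.Agent.S36.Abs Fermat.Agent.DR.Conc Fermat.Agent.DR.Gal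

section pole

variable {K F k Fb : Type*} [Field K] [Field F] [Algebra K F] [Field k] [Field Fb] [Algebra k Fb]
  {E : Type*} [IsFF K F] [IsAlgClosed K] [IsFF k Fb] [IsAlgClosed k] [Fintype E]

/-- **Leaf SS-A2.**  `G` regular off the poles of `x`, integral on the component `0`, with a pole of its reduction at `P` (not a pole of `x̄`):
`P` is the first branch of a node.
PROOF. `exists_mem_rr_of_mem_regOff hG` gives `a` with `G ∈ L(a (x)_∞)`.  `S36.Abs.exists_gluedAt_of_pole h.sep hsc hr h.nonconst hdeg ⟨a, _⟩ hG0 hP hGP`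
gives `j`, `G ∉ O_j`, `Q : Place k Fb`, `0 ≤ Q.ord (red_j x)`, `GluedAt T x P Q`.  `j ≠ 0` (else `hG0`), so `j = 1` (`Fin 2`: `fin_cases j` / `omega`).
`S36.E.eq_or_node_of_gluedAt h ⟨0, P⟩ ⟨j, Q⟩ hP hQ hgl` : the first alternative is impossible (`0 ≠ j`: `congrArg Sigma.fst`);
in the third one `⟨0, P⟩ = N.branch (Sum.inr e) = ⟨N.i₂ e, N.p₂ e⟩` gives `0 = N.i₂ e = 1`. -/
theorem exists_node_of_pole {T : MultiRed K F k (fun _ : Fin 2 => Fb)} {x : F}
    {N : NodeData k (fun _ : Fin 2 => Fb) E} {a₀ : ℕ} (h : IsPreNodal T x N a₀)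
    (hsc : HasScales T) (hr : RankOne T)
    (hdeg : Divisor.degree (poleDiv (K := K) x) =
      ∑ i, Divisor.degree (poleDiv (K := k) ((T.R i).red x)))
    (hi₂ : ∀ e, N.i₂ e = 1)
    {G : F} (hG : G ∈ regOff K x) (hG0 : G ∈ (T.R 0).O) {P : Place k Fb}
    (hP : 0 ≤ P.ord ((T.R 0).red x)) (hGP : P.ord ((T.R 0).red G) < 0) :
    ∃ e, N.branch (Sum.inl e) = ⟨0, P⟩ := by
  obtain ⟨j, hGj, Q, hQ, hgl⟩ := S36.Abs.exists_gluedAt_of_pole h.sep hsc hr h.nonconst hdeg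
    (exists_mem_rr_of_mem_regOff hG) hG0 hP hGP
  have hj0 : j ≠ 0 := by
    rintro rfl
    exact hGj hG0
  rcases S36.E.eq_or_node_of_gluedAt h ⟨0, P⟩ ⟨j, Q⟩ hP hQ hgl with h1 | ⟨e, ⟨h1, -⟩ | ⟨h1, -⟩⟩
  · exact absurd (congrArg Sigma.fst h1).symm hj0
  · exact ⟨e, h1.symm⟩
  · exfalso
    have h2 : (0 : Fin 2) = N.i₂ e := congrArg Sigma.fst h1
    rw [hi₂ e] at h2
    exact zero_ne_one h2

end pole

end Fermat.Agent.MR.PLC.Met
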