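import Fermat.Agent.MR.PLC.Met.SSChart
import Fermat.Agent.MR.PLC.Met.SSInv
import Fermat.Agent.MR.PLC.Met.SSPole
import Fermat.Agent.S33.Val.Conc
import Fermat.Agent.DR.Conc.Main

/-!
# MR / PLC / Met : every supersingular point is the first branch of a node of the Deligne-Rapoport pair `Conc.TT A M q`
-/

set_option autoImplicit false
set_option linter.unusedSectionVars false

noncomputable section

namespace Fermat.Agent.MR.PLC.Met

open Polynomial ModularCurve AlgebraicCurve Fermat.Agent.S24 Fermat.Agent.S28 Fermat.Agent.GAL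
  Fermat.Agent.GAL.Gauss Fermat.Agent.GAL.RED Fermat.Agent.DR Fermat.Agent.DR.Gal Fermat.Agent.DR.Conc
  Fermat.Agent.S36R.Unit Fermat.Agent.S36.Kron Fermat.Agent.Lib.RR

variable (A : ValuationSubring Kbar) (M q : ℕ) [NeZero M] [NeZero q] (hq : q.Prime)
  (hqM : ¬ q ∣ M) (hA : A.LiesOverPrime q)
  [Fact q.Prime] [CharP (IsLocalRing.ResidueField ↥A) q] [PerfectRing (IsLocalRing.ResidueField ↥A) q]
  [IsAlgClosed (IsLocalRing.ResidueField ↥A)]
  [Lib.RR.IsFF (IsLocalRing.ResidueField ↥A) (Igusa.E (IsLocalRing.ResidueField ↥A) M)]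
  [Lib.RR.IsFF Kbar (FN (M * q))] [Lib.RR.IsFF Kbar (FN M)]

/-- the degree identity in the second chart. -/
theorem TT_degree_inv : Divisor.degree (RED.poleDiv (K := Kbar) (xC M q)⁻¹) =
    ∑ i : Fin 2, Divisor.degree (RED.poleDiv (K := IsLocalRing.ResidueField ↥A)
      (((TT A M q hq hqM hA).R i).red (xC M q)⁻¹)) := by
  rw [degree_poleDiv_inv, TT_degree A M q hq hqM hA]
  refine Finset.sum_congr rfl fun i _ => ?_
  rw [((TT A M q hq hqM hA).R i).red_inv, degree_poleDiv_inv]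

/-- **(I)** every supersingular point is the first branch of a node. -/
theorem exists_node_of_mem_SS (hg : GoodRed A M)
    {P : Place (IsLocalRing.ResidueField ↥A) (Igusa.E (IsLocalRing.ResidueField ↥A) M)}
    (hP : P ∈ SS (IsLocalRing.ResidueField ↥A) q M) :
    ∃ e ∈ (pairHyp A M q hq hqM hA hg).filt.nodes,
      (frobX (IsLocalRing.ResidueField ↥A) M q).Φ e = P := by
  have hPH := pairHyp A M q hq hqM hA hg
  obtain ⟨a₀, hN⟩ := hPH.isPreNodal
  haveI : Fintype ↥(hPH.filt.nodes) := hPH.filt.finite_nodes.fintype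
  obtain ⟨Φ, U, G, m, c, hB⟩ := GAL.Igusa.hB q hq
  have key : ∃ e, hPH.nodeData.branch (Sum.inl e) = ⟨0, P⟩ := by
    by_cases h0 : 0 ≤ P.ord (sig (IsLocalRing.ResidueField ↥A) M q)
    · obtain ⟨G₀, h1, h2, h3⟩ := exists_G_chart1 A M q hq hqM hA hB hP
      exact exists_node_of_pole hN (S33.Val.TT_hasScales A M q hq hqM hA)
        (S33.Val.TT_rankOne A M q hq hqM hA) (TT_degree A M q hq hqM hA) (fun _ => rfl) h1 h2
        (by rw [TT_red_xC]; exact h0) h3
    · obtain ⟨G₀, h1, h2, h3⟩ := exists_G_chart2 A M q hq hqM hA hB hP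
      exact exists_node_of_pole (isPreNodal_inv hN hPH.x_mem_O hPH.x_inv_mem_O)
        (S33.Val.TT_hasScales A M q hq hqM hA)
        (S33.Val.TT_rankOne A M q hq hqM hA) (TT_degree_inv A M q hq hqM hA) (fun _ => rfl) h1 h2
        (by
          rw [((TT A M q hq hqM hA).R 0).red_inv, TT_red_xC, P.ord_inv]
          omega) h3
  obtain ⟨e, he⟩ := key
  refine ⟨e.1, e.2, ?_⟩
  have h1 : hPH.nodeData.branch (Sum.inl e) =
      (⟨0, (frobX (IsLocalRing.ResidueField ↥A) M q).Φ e.1⟩ :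
        Σ _ : Fin 2, Place (IsLocalRing.ResidueField ↥A)
          (Igusa.E (IsLocalRing.ResidueField ↥A) M)) := rfl
  rw [h1, Sigma.mk.injEq] at he
  exact eq_of_heq he.2

end Fermat.Agent.MR.PLC.Met
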