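import Fermat.Agent.S36.Abs.LyingOver.Main
import Fermat.Agent.DR.Conc.XiAbs

/-!
# MR / PLC / Met : functions which are regular off the poles (zeros) of the coordinate `ξ = num / den`

* `pow_mul_mem_regOff` : `u, u t` regular off the poles of `x`, `Ψ ∈ L(b (t)_∞)` ⟹ `u ^ b Ψ` is regular off the poles of `x`;
* `xiDen_inv_mem_regOff`, … : `1 / den`, `t / den` are regular off the poles of `ξ = num / den`; `1 / num`, `t / num` off its zeros.
-/

set_option autoImplicit false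
set_option linter.unusedSectionVars false

noncomputable section

namespace Fermat.Agent.MR.PLC.Met

open AlgebraicCurve Fermat.Agent.Lib.RR Fermat.Agent.GAL Fermat.Agent.GAL.RED Fermat.Agent.DR.Abs
  Fermat.Agent.S36.Abs Fermat.Agent.DR.Conc Fermat.Agent.DR.Gal

section ff

variable {K F : Type*} [Field K] [Field F] [Algebra K F] [IsFF K F] [IsAlgClosed K]

/-- **Leaf SS-A3.**
PROOF. `XiAbs_mem_regOff_iff` everywhere.  Let `P` with `0 ≤ ord_P x`.  If `Ψ = 0` or `u = 0` (and `b ≠ 0`; for `b = 0` see below) the product is `0`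
or use the general argument.  `mem_riemannRochSpace_iff` for `hΨ` at `P` : `Ψ = 0 ∨ -(b • poleDiv t) P ≤ ord_P Ψ`, `poleDiv_apply : poleDiv t P = max (-(ord_P t)) 0`.
Case `0 ≤ ord_P t` : `0 ≤ ord_P Ψ`, `0 ≤ ord_P u`, so `0 ≤ ord_P (u ^ b * Ψ)` (work with membership in `P.toValuationSubring`: `mul_mem`, `pow_mem`, via `XiAbs_mem_iff_ord_nonneg`).
Case `ord_P t < 0` (so `t ≠ 0`) : `ord_P Ψ ≥ b * ord_P t`; `u ^ b * Ψ = (u * t) ^ b * (Ψ / t ^ b)`, `ord_P (Ψ / t ^ b) = ord_P Ψ - b * ord_P t ≥ 0`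
(`ord_div`, `ord_pow`), `(u * t) ^ b` is regular at `P`. -/
theorem pow_mul_mem_regOff {x u t Ψ : F} {b : ℕ} (hu : u ∈ regOff K x) (hut : u * t ∈ regOff K x)
    (hΨ : Ψ ∈ riemannRochSpace (b • poleDiv (K := K) t)) : u ^ b * Ψ ∈ regOff K x := by
  intro P hP
  have hu' := hu P hP
  have hut' := hut P hP
  rw [mem_riemannRochSpace_iff] at hΨ
  rcases hΨ P with rfl | h
  · rw [mul_zero]
    exact zero_mem _
  rw [Finsupp.smul_apply, poleDiv_apply] at h
  rcases le_or_gt 0 (P.ord t) with ht | ht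
  · rw [max_eq_right (by omega), smul_zero, neg_zero] at h
    exact mul_mem (pow_mem hu' b) ((XiAbs_mem_iff_ord_nonneg P Ψ).2 h)
  · have ht0 : t ≠ 0 := by
      rintro rfl
      rw [P.ord_zero] at ht
      exact lt_irrefl _ ht
    rw [max_eq_left (by omega)] at h
    have e : u ^ b * Ψ = (u * t) ^ b * (Ψ / t ^ b) := by
      rw [mul_pow]
      field_simp
    rw [e]
    refine mul_mem (pow_mem hut' b) ((XiAbs_mem_iff_ord_nonneg P _).2 ?_)
    by_cases hΨ0 : Ψ = 0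
    · rw [hΨ0, zero_div, P.ord_zero]
    · rw [ord_div P hΨ0 (pow_ne_zero _ ht0), ord_pow]
      rw [nsmul_eq_mul] at h
      linarith

/-- **Leaf SS-A4 (a).**  PROOF. `XiAbs_mem_regOff_iff`; at `P` apply `DFunLike.congr_fun (poleDiv_xiOf hn ht).1 P`, `poleDiv_apply` twice, `omega`. -/
theorem xiDen_inv_mem_regOff {n : ℕ} (hn : 2 ≤ n) {t : F} (ht : Transcendental K t) :
    (xiDen n t)⁻¹ ∈ regOff K (xiOf n t) := by
  rw [XiAbs_mem_regOff_iff]
  intro P hP
  have h := DFunLike.congr_fun (poleDiv_xiOf (K := K) hn ht).1 P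
  rw [poleDiv_apply, poleDiv_apply] at h
  omega

/-- **Leaf SS-A4 (b).**  PROOF. the same with `(poleDiv_xiOf hn ht).2`. -/
theorem xiNum_inv_mem_regOff {n : ℕ} (hn : 2 ≤ n) {t : F} (ht : Transcendental K t) :
    (xiNum n t)⁻¹ ∈ regOff K (xiOf n t)⁻¹ := by
  rw [XiAbs_mem_regOff_iff]
  intro P hP
  have h := DFunLike.congr_fun (poleDiv_xiOf (K := K) hn ht).2 P
  rw [poleDiv_apply, poleDiv_apply] at h
  omega

/-- **Leaf SS-A4 (c).**  PROOF. At `P` with `0 ≤ ord_P ξ`.  If `0 ≤ ord_P t` : product of two regular elements ((a)).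
If `ord_P t < 0` : `exists_monic_yOf hn t` gives a monic `p` of degree `2 n` with `aeval t p = xiDen n t` (third component; look at the statement),
`XiAbs_ord_aeval_monic P h p hp : ord_P (aeval t p) = natDegree p * ord_P t`; so `ord_P (den⁻¹ * t) = (1 - 2 n) ord_P t ≥ 0`. -/
theorem xiDen_inv_mul_mem_regOff {n : ℕ} (hn : 2 ≤ n) {t : F} (ht : Transcendental K t) :
    (xiDen n t)⁻¹ * t ∈ regOff K (xiOf n t) := by
  intro P hP
  rcases le_or_gt 0 (P.ord t) with h | h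
  · exact mul_mem (xiDen_inv_mem_regOff hn ht P hP) ((XiAbs_mem_iff_ord_nonneg P t).2 h)
  · have ht0 : t ≠ 0 := by
      rintro rfl
      rw [P.ord_zero] at h
      exact lt_irrefl _ h
    obtain ⟨-, -, ⟨p, hp, hd, hpe⟩⟩ := exists_monic_yOf (K := K) hn t
    have h1 := XiAbs_ord_aeval_monic P h p hp
    rw [hpe, hd] at h1
    rw [XiAbs_mem_iff_ord_nonneg, P.ord_mul (inv_ne_zero (xiDen_ne_zero hn ht)) ht0, P.ord_inv, h1]
    push_cast
    have hn' : (2 : ℤ) ≤ (n : ℤ) := by exact_mod_cast hn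
    nlinarith

/-- **Leaf SS-A4 (d).**  PROOF. the same with the second component of `exists_monic_yOf`. -/
theorem xiNum_inv_mul_mem_regOff {n : ℕ} (hn : 2 ≤ n) {t : F} (ht : Transcendental K t) :
    (xiNum n t)⁻¹ * t ∈ regOff K (xiOf n t)⁻¹ := by
  intro P hP
  rcases le_or_gt 0 (P.ord t) with h | h
  · exact mul_mem (xiNum_inv_mem_regOff hn ht P hP) ((XiAbs_mem_iff_ord_nonneg P t).2 h)
  · have ht0 : t ≠ 0 := by
      rintro rfl
      rw [P.ord_zero] at h
      exact lt_irrefl _ h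
    obtain ⟨-, ⟨p, hp, hd, hpe⟩, -⟩ := exists_monic_yOf (K := K) hn t
    have h1 := XiAbs_ord_aeval_monic P h p hp
    rw [hpe, hd] at h1
    rw [XiAbs_mem_iff_ord_nonneg, P.ord_mul (inv_ne_zero (xiNum_ne_zero hn ht)) ht0, P.ord_inv, h1]
    push_cast
    have hn' : (2 : ℤ) ≤ (n : ℤ) := by exact_mod_cast hn
    nlinarith

/-- **Leaf SS-A4 (e).**  PROOF. `xiDen`, `xiNum`, `yOf` are polynomial expressions in `t`: membership in `P.toValuationSubring` (`XiAbs_mem_iff_ord_nonneg`),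
`add_mem`, `sub_mem`, `pow_mem`, `one_mem`. -/
theorem ord_xiDen_nonneg (P : Place K F) {t : F} (h : 0 ≤ P.ord t) (n : ℕ) :
    0 ≤ P.ord (xiDen n t) ∧ 0 ≤ P.ord (xiNum n t) := by
  have ht := (XiAbs_mem_iff_ord_nonneg P t).2 h
  have hy : yOf n t ∈ P.toValuationSubring := sub_mem (pow_mem ht n) ht
  exact ⟨(XiAbs_mem_iff_ord_nonneg P _).1 (add_mem (add_mem (pow_mem hy 2) hy) (one_mem _)),
    (XiAbs_mem_iff_ord_nonneg P _).1 (add_mem (pow_mem hy 2) (one_mem _))⟩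

end ff

end Fermat.Agent.MR.PLC.Met
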